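import Mathlib
import Fermat.Agent.GJ.HN.NormMer
import Fermat.Agent.GJ.HInputs.OrdNorm

set_option autoImplicit false
set_option linter.style.haveILetI false

/-!
# GATE-K / KU-TR (helper82), file 1: the norm along `F_N ⊆ F_{Nℓ}` of an ARBITRARY element

`ℓ` prime, `ℓ ∤ N`.  For every `v : F_{Nℓ}`,

`realize N (Norm_{F_{Nℓ}/F_N} v) = ∏_{x ∈ ℙ¹(𝔽_ℓ)} (realize (Nℓ) v) ∘ γ_x`

for any system `γ_x ∈ Γ₀(N)` with `∞ · γ_x = x` (coset representatives of `Γ₀(Nℓ) \ Γ₀(N)`).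
This is the general form of `HN.realize_norm_betaB` (same proof).
-/

noncomputable section

namespace Fermat.Agent.GK.UTr

open UpperHalfPlane ModularCurve AlgebraicCurve Fermat.Agent.S24 Fermat.Agent.S24_helper82
open Fermat.Agent.S28 Fermat.Agent.S28.CuspExp
open Fermat.Agent.GJ.MerGL Fermat.Agent.GJ.HeckeMult Fermat.Agent.S16_helper49
open Fermat.Agent.GJ.HN Fermat.Agent.GJ.HInputs
open P2MW.S_ModularForm_heckeT_slash_eq_self_of_mem_Gamma0.ModularForm.HeckeSlashInvariance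
open CongruenceSubgroup Matrix Matrix.SpecialLinearGroup
open scoped MatrixGroups Manifold OnePoint

variable {N ℓ : ℕ} [NeZero N] [Fact ℓ.Prime]

/-- two elements of `Γ₀(N)` with the same point `∞ · γ` of `ℙ¹(𝔽_ℓ)` differ by `Γ₀(Nℓ)` -/
theorem mul_inv_mem_Gamma0_mul (hℓN : ¬ ℓ ∣ N) {g g' : SL(2, ℤ)} (hg : g ∈ Gamma0 N)
    (hg' : g' ∈ Gamma0 N) (h : infPt ℓ g = infPt ℓ g') : g * g'⁻¹ ∈ Gamma0 (N * ℓ) := by
  have hℓ : ℓ.Prime := Fact.out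
  have h1 : infPt ℓ (g * g'⁻¹) = ∞ := by
    rw [infPt_mul, h, ← infPt_mul, mul_inv_cancel, infPt_one]
  rw [infPt_eq_infty_iff] at h1
  have h2 : g * g'⁻¹ ∈ Gamma0 N := mul_mem hg (inv_mem hg')
  have h3 : (N : ℤ) ∣ (g * g'⁻¹) 1 0 := dvd_of_mem_Gamma0 (⟨_, h2⟩ : Gamma0 N)
  have hcop : IsCoprime (N : ℤ) (ℓ : ℤ) :=
    (Nat.isCoprime_iff_coprime.mpr ((Nat.Prime.coprime_iff_not_dvd hℓ).mpr hℓN)).symm
  have h4 : ((N : ℤ) * (ℓ : ℤ)) ∣ (g * g'⁻¹) 1 0 := hcop.mul_dvd h3 h1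
  apply mem_Gamma0_of_dvd
  push_cast
  exact h4

/-- **The norm of an arbitrary element of `F_{Nℓ}` on `Mer`.** -/
theorem realize_norm_alphaB (hℓN : ¬ ℓ ∣ N) (γ : OnePoint (ZMod ℓ) → SL(2, ℤ))
    (hγ : ∀ x, γ x ∈ Gamma0 N) (hγx : ∀ x, infPt ℓ (γ x) = x) (v : FN (N * ℓ)) :
    realize N (normAlong (alphaB N ℓ) v) = ∏ x, compM (γ x) (realize (N * ℓ) v) := by
  have hℓ : ℓ.Prime := Fact.out
  rw [normAlong_def]
  letI : Algebra (FN N) (FN (N * ℓ)) := algebraAlong (alphaB N ℓ)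
  letI : Algebra (FN N) Mer := (realize N).toRingHom.toAlgebra
  haveI : FiniteDimensional (FN N) (FN (N * ℓ)) := finiteDimensional_alphaB hℓ hℓN
  haveI : Algebra.IsSeparable (FN N) (FN (N * ℓ)) := isSeparable_alphaB hℓ hℓN
  let s : OnePoint (ZMod ℓ) → (FN (N * ℓ) →ₐ[FN N] Mer) := fun x =>
    { toRingHom := (Sig (N * ℓ) (γ x)⁻¹).toRingHom
      commutes' := fun f => Sig_inv_alphaB (hγ x) f }
  have hs : ∀ x (f : FN (N * ℓ)), s x f = Sig (N * ℓ) (γ x)⁻¹ f := fun x f => rfl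
  have hinj : Function.Injective s := by
    intro x y hxy
    have h1 := DFunLike.congr_fun hxy (jdF (N * ℓ) (N * ℓ) dvd_rfl)
    rw [hs, hs] at h1
    have h2 := coset_eq_of_Sig_eq (N * ℓ) h1
    have h3 : (γ x)⁻¹⁻¹ * (γ y)⁻¹ ∈ Gamma0 (N * ℓ) := QuotientGroup.eq.mp h2
    rw [inv_inv] at h3
    have h4 : (ℓ : ℤ) ∣ (γ x * (γ y)⁻¹) 1 0 := by
      have := dvd_of_mem_Gamma0 (⟨_, h3⟩ : Gamma0 (N * ℓ))
      exact dvd_trans (by push_cast; exact dvd_mul_left _ _) this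
    rw [← infPt_eq_infty_iff, infPt_mul, hγx] at h4
    have h5 := congrArg (fun z => redMatrix ℓ (γ y) • z) h4
    rw [redMatrix_inv_smul] at h5
    rw [h5]
    exact hγx y
  have hcard : Fintype.card (OnePoint (ZMod ℓ)) = Module.finrank (FN N) (FN (N * ℓ)) := by
    rw [finrank_alphaB hℓ hℓN, card_onePoint_zmod]
  have key := norm_eq_prod_of_embeddings s hinj hcard v
  refine key.trans (Finset.prod_congr rfl fun x _ => ?_)
  rw [hs, Sig_apply, inv_inv]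

end Fermat.Agent.GK.UTr
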