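import Mathlib
import Fermat.Agent.GK.UTr.NormAlpha
import Fermat.Agent.GJ.J2.HeckeMerMult

set_option autoImplicit false
set_option linter.style.haveILetI false
set_option linter.unusedSectionVars false

/-!
# GATE-K / KU-TR (helper82), file 2: the TRACE RELATION `α(Norm_α v) = v · U_q(W_q v)`

`q` prime, `q ∤ N`, `M = N q`.  Let `w = [[x, y/q],[N z, t]]`, `q x t − N y z = 1` (the Atkin–Lehner
matrix `[[q x, y],[M z, q t]]` divided by `q`).  Then `w · [[1,b],[0,q]] = γ_b ∈ Γ₀(N)` and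
`∞ · γ_b = b` in `ℙ¹(𝔽_q)`, so `{1} ∪ {γ_b}` is a system of representatives of `Γ₀(M) \ Γ₀(N)` and

`Norm_{F_M / F_N}(v) = v · ∏_b (v ∘ w) ∘ [[1,b],[0,q]] = v · U_q (W_q v)`.
-/

noncomputable section

namespace Fermat.Agent.GK.UTr

open UpperHalfPlane ModularCurve AlgebraicCurve Fermat.Agent.S24 Fermat.Agent.S24_helper82
open Fermat.Agent.GJ.MerGL Fermat.Agent.GJ.HeckeMult Fermat.Agent.S16_helper49
open Fermat.Agent.GJ.HN Fermat.Agent.GJ.HInputs Fermat.Agent.GJ.HeckeMer
open P2MW.S_ModularForm_heckeT_slash_eq_self_of_mem_Gamma0.ModularForm.HeckeSlashInvariance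
open ModularForm
open CongruenceSubgroup Matrix Matrix.SpecialLinearGroup
open scoped MatrixGroups Manifold OnePoint

/-- Atkin–Lehner data at `q ∥ N q`: integers with `q x t − N y z = 1`. -/
structure ALData (N q : ℕ) where
  x : ℤ
  y : ℤ
  z : ℤ
  t : ℤ
  det_eq : (q : ℤ) * x * t - (N : ℤ) * y * z = 1

/-- Atkin–Lehner data exist when `q` and `N` are coprime. -/
theorem exists_ALData {N q : ℕ} (h : Nat.Coprime q N) : Nonempty (ALData N q) := by
  have h1 : IsCoprime (q : ℤ) (N : ℤ) := Nat.isCoprime_iff_coprime.mpr h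
  obtain ⟨a, b, hab⟩ := h1
  exact ⟨⟨a, -b, 1, 1, by linear_combination hab⟩⟩

namespace ALData

variable {N q : ℕ} [NeZero q] (D : ALData N q)

/-- the normalised Atkin–Lehner matrix `[[x, y/q],[N z, t]]` -/
def mat : Matrix (Fin 2) (Fin 2) ℝ := !![(D.x : ℝ), (D.y : ℝ) / q; (N : ℝ) * D.z, (D.t : ℝ)]

theorem det_mat : D.mat.det = 1 / (q : ℝ) := by
  have hq : (q : ℝ) ≠ 0 := by exact_mod_cast NeZero.ne q
  have h := congrArg (fun n : ℤ => (n : ℝ)) D.det_eq
  simp only [Int.cast_sub, Int.cast_mul, Int.cast_natCast, Int.cast_one] at h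
  rw [mat, Matrix.det_fin_two_of]
  field_simp
  linear_combination h

theorem det_mat_pos : 0 < D.mat.det := by
  rw [det_mat]
  have hq : (0 : ℝ) < q := by exact_mod_cast Nat.pos_of_ne_zero (NeZero.ne q)
  positivity

/-- the normalised Atkin–Lehner matrix in `GL(2, ℝ)` -/
def gl : GL (Fin 2) ℝ := Matrix.GeneralLinearGroup.mkOfDetNeZero D.mat D.det_mat_pos.ne'

@[simp] theorem coe_gl : ((D.gl : GL (Fin 2) ℝ) : Matrix (Fin 2) (Fin 2) ℝ) = D.mat := rfl

theorem det_gl_pos : 0 < D.gl.det.val := by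
  rw [Matrix.GeneralLinearGroup.val_det_apply, coe_gl]
  exact D.det_mat_pos

/-- the representatives `γ_b = [[x, x b + y],[N z, N z b + q t]]` -/
def rep (b : ℕ) : SL(2, ℤ) :=
  ⟨!![D.x, D.x * b + D.y; (N : ℤ) * D.z, (N : ℤ) * D.z * b + (q : ℤ) * D.t], by
    rw [Matrix.det_fin_two_of]; linear_combination D.det_eq⟩

theorem rep_mem_Gamma0 (b : ℕ) : D.rep b ∈ Gamma0 N := by
  rw [Gamma0_mem]
  show (((N : ℤ) * D.z : ℤ) : ZMod N) = 0
  simp

/-- `w · [[1,b],[0,q]] = γ_b`. -/
theorem gl_mul_heckeMatrix (b : ℕ) :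
    D.gl * heckeMatrix q b = mapGL ℝ (D.rep b) := by
  have hq : (q : ℝ) ≠ 0 := by exact_mod_cast NeZero.ne q
  ext i j
  rw [mapGL_apply, Matrix.GeneralLinearGroup.coe_mul, coe_gl, val_heckeMatrix (NeZero.ne q), mat]
  fin_cases i <;> fin_cases j <;>
    simp [rep, Matrix.mul_apply, Fin.sum_univ_two]
  all_goals field_simp

/-- `∞ · γ_b = b` in `ℙ¹(𝔽_q)`. -/
theorem infPt_rep [Fact q.Prime] (b : ZMod q) :
    infPt q (D.rep b.val) = (b : OnePoint (ZMod q)) := by
  have h10 : (D.rep b.val) 1 0 = (N : ℤ) * D.z := rfl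
  have h11 : (D.rep b.val) 1 1 = (N : ℤ) * D.z * (b.val : ℕ) + (q : ℤ) * D.t := rfl
  have hNz : (((N : ℤ) * D.z : ℤ) : ZMod q) ≠ 0 := by
    intro h0
    have h := congrArg (fun n : ℤ => (n : ZMod q)) D.det_eq
    simp only [Int.cast_sub, Int.cast_mul, Int.cast_natCast, Int.cast_one, ZMod.natCast_self,
      zero_mul, zero_sub] at h
    have h2 : ((N : ZMod q) * (D.y : ZMod q)) * (D.z : ZMod q)
        = (D.y : ZMod q) * (((N : ℤ) * D.z : ℤ) : ZMod q) := by
      push_cast; ring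
    rw [h2, h0, mul_zero, neg_zero] at h
    exact zero_ne_one h
  rw [infPt, OnePoint.smul_infty_eq_ite, redMatrix_apply_one_zero, redMatrix_apply_zero_zero,
    h10, h11, if_neg hNz]
  congr 1
  rw [div_eq_iff hNz]
  push_cast
  rw [ZMod.natCast_zmod_val, ZMod.natCast_self]
  ring

/-- the system of representatives `1, γ_b` of `Γ₀(N q) \ Γ₀(N)` indexed by `ℙ¹(𝔽_q)` -/
def reps : OnePoint (ZMod q) → SL(2, ℤ) := fun x => Option.elim x 1 (fun b => D.rep b.val)

@[simp] theorem reps_infty : D.reps ∞ = 1 := rfl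

@[simp] theorem reps_coe (b : ZMod q) : D.reps (b : OnePoint (ZMod q)) = D.rep b.val := rfl

theorem reps_mem_Gamma0 (x : OnePoint (ZMod q)) : D.reps x ∈ Gamma0 N := by
  induction x using OnePoint.rec with
  | infty => exact one_mem _
  | coe b => exact D.rep_mem_Gamma0 b.val

theorem infPt_reps [Fact q.Prime] (x : OnePoint (ZMod q)) : infPt q (D.reps x) = x := by
  induction x using OnePoint.rec with
  | infty => exact infPt_one
  | coe b => exact D.infPt_rep b

end ALData

section TraceRelation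

variable {N q : ℕ} [NeZero N] [Fact q.Prime]

/-- **The trace relation, pointwise form.**  If `Wv` realises `v ∘ w` (Atkin–Lehner) and `UWv`
realises `U_q (Wv) = ∏_b (Wv)((τ+b)/q)`, then `Norm_{F_{Nq}/F_N}(v) = v · UWv` in `F_{Nq}`. -/
theorem trace_relation_pointwise (hqN : ¬ q ∣ N) (D : ALData N q) (v Wv UWv : FN (N * q))
    (hW : realize (N * q) Wv = compMGL D.gl D.det_gl_pos (realize (N * q) v))
    (hU : realize (N * q) UWv = heckeNormU q (realize (N * q) Wv)) :
    alphaB N q (normAlong (alphaB N q) v) = v * UWv := by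
  apply realize_injective (N * q)
  rw [realize_alphaB, realize_norm_alphaB hqN D.reps D.reps_mem_Gamma0 D.infPt_reps v, map_mul, hU,
    heckeNormU_apply, hW]
  refine (Fintype.prod_option
    (fun x : OnePoint (ZMod q) => compM (D.reps x) (realize (N * q) v))).trans ?_
  congr 1
  · show compM (1 : SL(2, ℤ)) (realize (N * q) v) = realize (N * q) v
    rw [← compMGL_mapGL]
    have h1 : mapGL ℝ (1 : SL(2, ℤ)) = 1 := map_one _
    rw [compMGL_congr h1 _ det_one_pos, compMGL_one]
  · refine Finset.prod_congr rfl fun b _ => ?_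
    show compM (D.rep b.val) (realize (N * q) v) = _
    rw [← compMGL_mul D.det_gl_pos (det_heckeMatrix_pos q b.val),
      compMGL_congr (D.gl_mul_heckeMatrix b.val) _ (det_mapGL_pos _), compMGL_mapGL]

/-- **The trace relation** `α ∘ Norm_α = id · (U ∘ W)` for operators `U W` on `F_{Nq}` with the
expected realisations. -/
theorem trace_relation (hqN : ¬ q ∣ N) (D : ALData N q) (U W : FN (N * q) → FN (N * q))
    (hW : ∀ f, realize (N * q) (W f) = compMGL D.gl D.det_gl_pos (realize (N * q) f))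
    (hU : ∀ u, realize (N * q) (U u) = heckeNormU q (realize (N * q) u)) (v : FN (N * q)) :
    alphaB N q (normAlong (alphaB N q) v) = v * U (W v) :=
  trace_relation_pointwise hqN D v (W v) (U (W v)) (hW v) (hU (W v))

end TraceRelation

end Fermat.Agent.GK.UTr

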