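import Mathlib
import Fermat.Agent.GK.UTr.TraceRel
import Fermat.Agent.GK.UQ.KumU

set_option autoImplicit false
set_option linter.style.haveILetI false
set_option linter.unusedSectionVars false

/-!
# GATE-K / KU-TR (helper82), file 3: `α_*`, `α^*` on Kummer groups and the trace relation there

* `kumLin₂`      : the `ℤ/p`-linear map `Kum(F, p) → Kum(F', p)` induced by `f : Fˣ →* F'ˣ`
                   preserving "`p` divides the divisor" (two-field version of `KumType.kumEnd`);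
* `aLow N q m`   : `α_* : Kum(F_{Nq}, m) → Kum(F_N, m)`, `[v] ↦ [Norm_{F_{Nq}/F_N} v]`;
* `aUp N q m`    : `α^* : Kum(F_N, m) → Kum(F_{Nq}, m)`, `[u] ↦ [u]`;
* `aUp_aLow`     : **`α^* α_* = 1 + U_q ∘ W`** on `Kum(F_{Nq}, m)` for any endomorphism `W` of the units
                   realising the Atkin–Lehner matrix (hypothesis form in `W`).
-/

noncomputable section

namespace Fermat.Agent.GK.UTr

open AlgebraicCurve ModularCurve Fermat.Agent.S24 Fermat.Agent.S24_helper82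
open Fermat.Agent.GJ Fermat.Agent.GJ.HN Fermat.Agent.GJ.HeckeMer Fermat.Agent.GJ.HInputs
open Fermat.Agent.GJ.KumGroup Fermat.Agent.GJ.Kum.KumType
open Fermat.Agent.GK.UQ CongruenceSubgroup
open scoped MatrixGroups

/-! ### Generic two-field Kummer maps -/

section Generic2

variable {K F F' : Type*} [Field K] [Field F] [Field F'] [Algebra K F] [Algebra K F'] {p : ℕ}

/-- restriction of `f : Fˣ →* F'ˣ` to the `p`-divisible units -/
def restr₂ (f : Fˣ →* F'ˣ) (hf : ∀ u ∈ pDivUnits K F p, f u ∈ pDivUnits K F' p) :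
    pDivUnits K F p →* pDivUnits K F' p where
  toFun u := ⟨f (u : Fˣ), hf u u.2⟩
  map_one' := Subtype.ext (map_one f)
  map_mul' a b := Subtype.ext (map_mul f (a : Fˣ) (b : Fˣ))

theorem restr₂_le (f : Fˣ →* F'ˣ) (hf : ∀ u ∈ pDivUnits K F p, f u ∈ pDivUnits K F' p) :
    pPowers K F p ≤ (pPowers K F' p).comap (restr₂ f hf) := by
  rintro u ⟨w, hw⟩
  refine ⟨f w, ?_⟩
  show (f w) ^ p = f (u : Fˣ)
  rw [← map_pow]
  exact congrArg f hw

/-- the map `Kum(F, p) → Kum(F', p)` induced by `f` -/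
def kumMap₂ (f : Fˣ →* F'ˣ) (hf : ∀ u ∈ pDivUnits K F p, f u ∈ pDivUnits K F' p) :
    Kum K F p →* Kum K F' p :=
  (QuotientGroup.map (pPowers K F p) (pPowers K F' p) (restr₂ f hf) (restr₂_le f hf) :
    pDivUnits K F p ⧸ pPowers K F p →* pDivUnits K F' p ⧸ pPowers K F' p)

/-- the `ℤ/p`-linear map `Kum(F, p) → Kum(F', p)` induced by `f` -/
def kumLin₂ (f : Fˣ →* F'ˣ) (hf : ∀ u ∈ pDivUnits K F p, f u ∈ pDivUnits K F' p) :
    Additive (Kum K F p) →ₗ[ZMod p] Additive (Kum K F' p) :=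
  (MonoidHom.toAdditive (kumMap₂ f hf)).toZModLinearMap p

theorem kumLin₂_mk (f : Fˣ →* F'ˣ) (hf : ∀ u ∈ pDivUnits K F p, f u ∈ pDivUnits K F' p)
    (u : pDivUnits K F p) :
    kumLin₂ f hf (Additive.ofMul (Kum.mk u)) = Additive.ofMul (Kum.mk ⟨f u, hf u u.2⟩) := rfl

/-- the norm along `ψ` as a monoid homomorphism -/
def normAlongHom (ψ : F →ₐ[K] F') : F' →* F := @Algebra.norm F F' _ _ (algebraAlong ψ)

theorem normAlongHom_apply (ψ : F →ₐ[K] F') (x : F') : normAlongHom ψ x = normAlong ψ x := rfl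

/-- the norm along `ψ` preserves "`p` divides the divisor" -/
theorem dvd_ord_normAlong_of_dvd [IsAlgClosed K] [CharZero K] [HasPrincipalDivisors K F']
    (ψ : F →ₐ[K] F') (hψ : ψ.toRingHom.IsIntegral) (hfin : FiniteAlong K ψ)
    (hdeg : ∀ P : Place K F, P.deg = 1) (n : ℤ) (x : F') (hx0 : x ≠ 0)
    (hx : ∀ Q : Place K F', n ∣ Q.ord x) (P : Place K F) : n ∣ P.ord (normAlong ψ x) := by
  rw [ord_normAlong ψ hψ hfin P (hdeg P) x hx0]
  exact Finset.dvd_sum fun Q _ => hx Q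

/-- pulling back along `φ` preserves "`p` divides the divisor" -/
theorem dvd_ord_map_of_dvd (φ : F →ₐ[K] F') (hφ : φ.toRingHom.IsIntegral) (n : ℤ) (u : F)
    (hu : ∀ P : Place K F, n ∣ P.ord u) (Q : Place K F') : n ∣ Q.ord (φ u) :=
  @dvd_ord_algebraMap K F F' _ _ _ _ _ (algebraAlong φ) (isScalarTower_along φ)
    (isIntegral_along φ hφ) n u hu Q

end Generic2

/-! ### `α_*` and `α^*` for `F_N ⊆ F_{Nq}` -/

section Alpha

variable (N q m : ℕ) [NeZero N] [NeZero q]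

/-- `α^*` on units -/
def alphaUnits : (FK N)ˣ →* (FK (N * q))ˣ := Units.map (alphaB N q).toMonoidHom

@[simp] theorem coe_alphaUnits (u : (FK N)ˣ) :
    ((alphaUnits N q u : (FK (N * q))ˣ) : FK (N * q)) = alphaB N q (u : FK N) := rfl

/-- the norm `F_{Nq} → F_N` on units -/
def normUnits : (FK (N * q))ˣ →* (FK N)ˣ := Units.map (normAlongHom (alphaB N q))

@[simp] theorem coe_normUnits (v : (FK (N * q))ˣ) :
    ((normUnits N q v : (FK N)ˣ) : FK N) = normAlong (alphaB N q) (v : FK (N * q)) := rfl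

theorem alphaUnits_mem (u : (FK N)ˣ) (hu : u ∈ pDivUnits Kb (FK N) m) :
    alphaUnits N q u ∈ pDivUnits Kb (FK (N * q)) m := by
  obtain ⟨hα, -, -, -, -, -⟩ := heckeInputsAlong_bar N q
  exact fun Q => dvd_ord_map_of_dvd (alphaB N q) hα (m : ℤ) (u : FK N) hu Q

theorem normUnits_mem (v : (FK (N * q))ˣ) (hv : v ∈ pDivUnits Kb (FK (N * q)) m) :
    normUnits N q v ∈ pDivUnits Kb (FK N) m := by
  obtain ⟨hα, -, hP, hfin, -, -⟩ := heckeInputsAlong_bar N q
  exact fun P => dvd_ord_normAlong_of_dvd (alphaB N q) hα hfin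
    (fun v => PlaceB.deg_eq_one v (jF N) (hx := Fermat.Agent.S24_helper62.isGen_jF N)) (m : ℤ)
    (v : FK (N * q)) v.ne_zero hv P

/-- **`α_*`** : `Kum(F_{Nq}, m) → Kum(F_N, m)` -/
def aLow : Additive (Kum Kb (FK (N * q)) m) →ₗ[ZMod m] Additive (Kum Kb (FK N) m) :=
  kumLin₂ (normUnits N q) (normUnits_mem N q m)

/-- **`α^*`** : `Kum(F_N, m) → Kum(F_{Nq}, m)` -/
def aUp : Additive (Kum Kb (FK N) m) →ₗ[ZMod m] Additive (Kum Kb (FK (N * q)) m) :=
  kumLin₂ (alphaUnits N q) (alphaUnits_mem N q m)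

theorem aLow_mk (v : pDivUnits Kb (FK (N * q)) m) :
    aLow N q m (Additive.ofMul (Kum.mk v)) =
      Additive.ofMul (Kum.mk ⟨normUnits N q v, normUnits_mem N q m v v.2⟩) := rfl

theorem aUp_mk (u : pDivUnits Kb (FK N) m) :
    aUp N q m (Additive.ofMul (Kum.mk u)) =
      Additive.ofMul (Kum.mk ⟨alphaUnits N q u, alphaUnits_mem N q m u u.2⟩) := rfl

end Alpha

/-! ### The trace relation on `Kum(F_{Nq}, m)` -/

section Trace

variable {N q : ℕ} [NeZero N] [Fact q.Prime] (m : ℕ)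

/-- **`α^* α_* = 1 + U_q ∘ W`** on `Kum(F_{Nq}, m)`, for any endomorphism `Wu` of the units of
`F_{Nq}` which preserves `m`-divisibility of divisors and realises the Atkin–Lehner matrix. -/
theorem aUp_aLow (hqN : ¬ q ∣ N) (D : ALData N q) (Wu : (FK (N * q))ˣ →* (FK (N * q))ˣ)
    (hWu : ∀ u ∈ pDivUnits Kb (FK (N * q)) m, Wu u ∈ pDivUnits Kb (FK (N * q)) m)
    (hW : ∀ u : (FK (N * q))ˣ, realize (N * q) ((Wu u : (FK (N * q))ˣ) : FK (N * q))
      = compMGL D.gl D.det_gl_pos (realize (N * q) (u : FK (N * q))))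
    (x : Additive (Kum Kb (FK (N * q)) m)) :
    aUp N q m (aLow N q m x) =
      x + UEnd (N * q) m (Dvd.intro_left N rfl) (kumEnd Wu hWu x) := by
  obtain ⟨v, rfl⟩ := exists_rep x
  rw [aLow_mk, aUp_mk, kumEnd_mk, UEnd_mk, ← ofMul_mul, ← map_mul]
  refine congrArg (fun w => Additive.ofMul (Kum.mk w)) (Subtype.ext (Units.ext ?_))
  show alphaB N q (normAlong (alphaB N q) ((v : (FK (N * q))ˣ) : FK (N * q)))
    = ((v : (FK (N * q))ˣ) : FK (N * q)) *
        uNormF (N * q) q ((Wu (v : (FK (N * q))ˣ) : (FK (N * q))ˣ) : FK (N * q))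
  exact trace_relation_pointwise hqN D _ _ _ (hW _)
    (realize_uNormF (Dvd.intro_left N rfl) _)

end Trace

end Fermat.Agent.GK.UTr
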