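import Mathlib
import Fermat.Agent.GK.UTr.KumAlpha

set_option autoImplicit false
set_option linter.style.haveILetI false
set_option linter.unusedSectionVars false

/-!
# GATE-K / KU-TR (helper82), file 4: `α_*`, `α^*` commute with the Galois action

The coefficientwise Galois action `arithmeticRingAut` is a ring automorphism of the tower
`F_N ⊆ F_{Nq}` (`alphaB` is the inclusion of `q`-expansions), hence commutes with the norm.

* `alphaB_arith`   : `α (σ a) = σ (α a)`;
* `normAlong_arith`: `Norm_α (σ v) = σ (Norm_α v)`;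
* `aLow_gal`, `aUp_gal` : `α_*`, `α^*` commute with `KumType.gal`.
-/

noncomputable section

namespace Fermat.Agent.GK.UTr

open AlgebraicCurve ModularCurve Fermat.Agent.S24 Fermat.Agent.S24_helper82
open Fermat.Agent.GJ Fermat.Agent.GJ.HN Fermat.Agent.GJ.HeckeMer Fermat.Agent.GJ.HInputs
open Fermat.Agent.GJ.KumGroup Fermat.Agent.GJ.Kum.KumType
open Fermat.Agent.GK.UQ CongruenceSubgroup
open scoped MatrixGroups

local notation "GQ" => (AlgebraicClosure ℚ ≃ₐ[ℚ] AlgebraicClosure ℚ)

section GalEquiv

variable (N q m : ℕ) [NeZero N] [NeZero q]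

/-- `α` commutes with the coefficientwise Galois action -/
theorem alphaB_arith (σ : GQ) (a : FK N) :
    alphaB N q (arithmeticRingAut (modularFunctionFieldFull N) σ a) =
      arithmeticRingAut (modularFunctionFieldFull (N * q)) σ (alphaB N q a) := by
  apply Subtype.ext
  rw [coe_arithmeticRingAut_apply]
  show ((heckeAlphaBar Kbar N q (arithmeticRingAut (modularFunctionFieldFull N) σ a) :
      FN (N * q)) : LaurentSeries Kbar) =
    coeffMap (σ : Kbar →+* Kbar) ((heckeAlphaBar Kbar N q a : FN (N * q)) : LaurentSeries Kbar)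
  rw [coe_heckeAlphaBar, coe_heckeAlphaBar, coe_arithmeticRingAut_apply]

/-- the norm along `α` commutes with the coefficientwise Galois action -/
theorem normAlong_arith (σ : GQ) (v : FK (N * q)) :
    normAlong (alphaB N q) (arithmeticRingAut (modularFunctionFieldFull (N * q)) σ v) =
      arithmeticRingAut (modularFunctionFieldFull N) σ (normAlong (alphaB N q) v) := by
  letI : Algebra (FN N) (FN (N * q)) := algebraAlong (alphaB N q)
  have he : RingHom.comp (algebraMap (FN N) (FN (N * q)))
      ((arithmeticRingAut (modularFunctionFieldFull N) σ : FN N ≃+* FN N) : FN N →+* FN N) =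
      RingHom.comp ((arithmeticRingAut (modularFunctionFieldFull (N * q)) σ :
        FN (N * q) ≃+* FN (N * q)) : FN (N * q) →+* FN (N * q))
        (algebraMap (FN N) (FN (N * q))) :=
    RingHom.ext fun a => alphaB_arith N q σ a
  have h := Algebra.norm_eq_of_equiv_equiv
    (arithmeticRingAut (modularFunctionFieldFull N) σ : FN N ≃+* FN N)
    (arithmeticRingAut (modularFunctionFieldFull (N * q)) σ : FN (N * q) ≃+* FN (N * q)) he v
  show Algebra.norm (FN N) (arithmeticRingAut (modularFunctionFieldFull (N * q)) σ v) =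
    arithmeticRingAut (modularFunctionFieldFull N) σ (Algebra.norm (FN N) v)
  rw [h, RingEquiv.apply_symm_apply]

/-- `Norm_α` on units commutes with `galUnits` -/
theorem normUnits_galUnits (σ : GQ) (v : (FK (N * q))ˣ) :
    normUnits N q (galUnits (N * q) σ v) = galUnits N σ (normUnits N q v) :=
  Units.ext (normAlong_arith N q σ (v : FK (N * q)))

/-- `α` on units commutes with `galUnits` -/
theorem alphaUnits_galUnits (σ : GQ) (u : (FK N)ˣ) :
    alphaUnits N q (galUnits N σ u) = galUnits (N * q) σ (alphaUnits N q u) :=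
  Units.ext (alphaB_arith N q σ (u : FK N))

/-- **`α_*` commutes with the Galois action** -/
theorem aLow_gal (σ : GQ) (x : Additive (Kum Kb (FK (N * q)) m)) :
    aLow N q m (gal (N * q) m σ x) = gal N m σ (aLow N q m x) := by
  obtain ⟨v, rfl⟩ := exists_rep x
  rw [gal_mk, aLow_mk, aLow_mk, gal_mk]
  exact congrArg (fun w => Additive.ofMul (Kum.mk w))
    (Subtype.ext (normUnits_galUnits N q σ (v : (FK (N * q))ˣ)))

/-- **`α^*` commutes with the Galois action** -/
theorem aUp_gal (σ : GQ) (x : Additive (Kum Kb (FK N) m)) :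
    aUp N q m (gal N m σ x) = gal (N * q) m σ (aUp N q m x) := by
  obtain ⟨u, rfl⟩ := exists_rep x
  rw [gal_mk, aUp_mk, aUp_mk, gal_mk]
  exact congrArg (fun w => Additive.ofMul (Kum.mk w))
    (Subtype.ext (alphaUnits_galUnits N q σ (u : (FK N)ˣ)))

end GalEquiv

end Fermat.Agent.GK.UTr
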