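import Mathlib
import Fermat.Agent.GK.UTr.KumAlphaGal
import Fermat.Agent.GK.AL.WRealize
import Fermat.Agent.GK.UqKroneckerU
import Fermat.Agent.GK.UQ.NormMer

set_option autoImplicit false
set_option linter.style.haveILetI false
set_option linter.unusedSectionVars false

/-!
# GATE-K / KU-TR (helper82), file 5: the CONCRETE trace relation `α^* α_* = 1 + U_q W_q`

helper42's Atkin–Lehner involution `wAut h` (`h : ExactDvd q (N' q)`) is plugged into `aUp_aLow`:

* `ALData.ofWData`   : the Atkin–Lehner data `(x, y, 1, 1)` from a Bezout datum `q x − N' y = 1`;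
* `compMGL_ofWData`  : `f ∘ [[x, y/q],[N', 1]] = f ∘ [[q x, y],[q N', q]]` on `Mer`;
* `aUp_aLow_wAut`    : **`α^* (α_* x) = x + U_q (W_q x)`** on `Kum_m(F_{N' q})`, unconditionally;
* `bLow`, `bLow_gal` : `β_* := α_* ∘ W_q` and its Galois-equivariance (with `aLow_gal`).
-/

noncomputable section

namespace Fermat.Agent.GK.UTr

open UpperHalfPlane AlgebraicCurve ModularCurve Fermat.Agent.S24 Fermat.Agent.S24_helper82
open Fermat.Agent.GJ Fermat.Agent.GJ.HN Fermat.Agent.GJ.HeckeMer Fermat.Agent.GJ.HInputs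
open Fermat.Agent.GJ.MerGL
open Fermat.Agent.GJ.KumGroup Fermat.Agent.GJ.Kum.KumType
open Fermat.Agent.GK.UQ Fermat.Agent.GK.AL Fermat.Agent.GK.UqKronecker CongruenceSubgroup
open scoped MatrixGroups

local notation "GQ" => (AlgebraicClosure ℚ ≃ₐ[ℚ] AlgebraicClosure ℚ)

section Bridge

variable {N' q : ℕ} [NeZero q]

/-- Atkin–Lehner data `(x, y, 1, 1)` from a Bezout datum `q x − N' y = 1` -/
def ALData.ofWData (D : WData q (N' * q / q)) : ALData N' q where
  x := D.x
  y := D.y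
  z := 1
  t := 1
  det_eq := by
    have h := D.rel
    have hN : ((N' * q / q : ℕ) : ℤ) = (N' : ℤ) := by
      rw [Nat.mul_div_cancel _ (Nat.pos_of_ne_zero (NeZero.ne q))]
    rw [hN] at h
    linarith

theorem ofWData_smul (hq : 0 < q) (D : WData q (N' * q / q)) (τ : ℍ) :
    (⟨(ALData.ofWData D).gl, (ALData.ofWData D).det_gl_pos⟩ : P) • τ = wP hq D • τ := by
  apply UpperHalfPlane.ext
  rw [coe_wP_smul, P_smul_def]
  show (((ALData.ofWData D).gl • τ : ℍ) : ℂ) = _
  rw [UpperHalfPlane.coe_smul_of_det_pos (ALData.ofWData D).det_gl_pos]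
  have hq' : (q : ℂ) ≠ 0 := by exact_mod_cast hq.ne'
  have hN : ((N' * q / q : ℕ) : ℂ) = (N' : ℂ) := by
    rw [Nat.mul_div_cancel _ hq]
  have hden := wden_ne_zero' (N' := N') τ
  have hden2 : (q : ℂ) * (N' : ℂ) * τ + q ≠ 0 := by
    have : (q : ℂ) * (N' : ℂ) * τ + q = q * ((N' : ℂ) * τ + 1) := by ring
    rw [this]
    exact mul_ne_zero hq' hden
  rw [hN]
  simp only [UpperHalfPlane.num, UpperHalfPlane.denom, ALData.coe_gl, ALData.mat,
    ALData.ofWData, Matrix.of_apply, Matrix.cons_val', Matrix.cons_val_zero, Matrix.cons_val_one,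
    Matrix.empty_val', Matrix.cons_val_fin_one]
  push_cast
  rw [div_eq_div_iff (by simpa using hden) hden2]
  field_simp

/-- `f ∘ [[x, y/q],[N', 1]] = f ∘ [[q x, y],[q N', q]]` on `Mer` -/
theorem compMGL_ofWData (hq : 0 < q) (D : WData q (N' * q / q)) (m : Mer) :
    compMGL (ALData.ofWData D).gl (ALData.ofWData D).det_gl_pos m = compPM (wP hq D) m := by
  rw [compMGL_eq_compPM]
  exact compPM_congr (ofWData_smul hq D) m

end Bridge

section Concrete

variable {N' q : ℕ} [NeZero N'] [Fact q.Prime] (h : ExactDvd q (N' * q)) (m : ℕ)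

/-- **the trace relation `α^* α_* = 1 + U_q W_q`** on `Kum_m(F_{N' q})`, `q ∥ N' q`. -/
theorem aUp_aLow_wAut (x : Additive (Kum Kb (FK (N' * q)) m)) :
    haveI : NeZero q := ⟨(Fact.out : q.Prime).ne_zero⟩
    aUp N' q m (aLow N' q m x) =
      x + UEnd (N' * q) m (Dvd.intro_left N' rfl)
        (autEnd (wAut h : FK (N' * q) ≃ₐ[Kb] FK (N' * q)) m x) := by
  haveI : NeZero q := ⟨(Fact.out : q.Prime).ne_zero⟩
  obtain ⟨Dw⟩ := exists_wData h.coprime
  have hqN : ¬ q ∣ N' := ExactDvd.not_dvd_left N' h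
  exact aUp_aLow m hqN (ALData.ofWData Dw) (autUnits (wAut h : FK (N' * q) ≃ₐ[Kb] FK (N' * q)))
    (autUnits_mem (wAut h : FK (N' * q) ≃ₐ[Kb] FK (N' * q)) m)
    (fun u => by
      rw [compMGL_ofWData h.pos Dw]
      exact realize_wAut h Dw (u : FK (N' * q))) x

end Concrete

section Beta

variable {N' q : ℕ} [NeZero N'] [NeZero q] (h : ExactDvd q (N' * q)) (m : ℕ)

/-- **`β_* := α_* ∘ W_q`** : `Kum_m(F_{N' q}) → Kum_m(F_{N'})` -/
def bLow : Additive (Kum Kb (FK (N' * q)) m) →ₗ[ZMod m] Additive (Kum Kb (FK N') m) :=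
  (aLow N' q m).comp (autEnd (wAut h : FK (N' * q) ≃ₐ[Kb] FK (N' * q)) m)

theorem bLow_apply (x : Additive (Kum Kb (FK (N' * q)) m)) :
    bLow h m x = aLow N' q m (autEnd (wAut h : FK (N' * q) ≃ₐ[Kb] FK (N' * q)) m x) := rfl

/-- `W_q` commutes with the Galois action on `Kum` -/
theorem autEnd_wAut_gal (σ : GQ) (x : Additive (Kum Kb (FK (N' * q)) m)) :
    autEnd (wAut h : FK (N' * q) ≃ₐ[Kb] FK (N' * q)) m (gal (N' * q) m σ x) =
      gal (N' * q) m σ (autEnd (wAut h : FK (N' * q) ≃ₐ[Kb] FK (N' * q)) m x) :=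
  autEnd_comm_gal _ (wAut_comm_gal h σ) m x

/-- **`β_*` commutes with the Galois action** -/
theorem bLow_gal (σ : GQ) (x : Additive (Kum Kb (FK (N' * q)) m)) :
    bLow h m (gal (N' * q) m σ x) = gal N' m σ (bLow h m x) := by
  rw [bLow_apply, bLow_apply, autEnd_wAut_gal, aLow_gal]

end Beta

end Fermat.Agent.GK.UTr
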