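import Mathlib
import Fermat.Agent.GK.UTr.KumAlphaGal

set_option autoImplicit false
set_option linter.style.haveILetI false
set_option linter.unusedSectionVars false

/-!
# GATE-K/L (helper82): `β_*`, `β^*` on Kummer groups for ARBITRARY `(N, q)` and Galois-equivariance

The twin of `KumAlpha`/`KumAlphaGal` for the second degeneracy map `betaB N q : F_N → F_{Nq}`
(`f(z) ↦ f(qz)`, i.e. `Q ↦ Q^q` on `q`-expansions), for ALL `N, q ≥ 1` (`q ∣ N` allowed, so it
serves the levels `q M → q² M` of GATE-L as well):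

* `finiteAlong_betaB_all` : `F_{Nq}` is finite over `β(F_N)`;
* `betaLow N q m` : `β_* : Kum_m(F_{Nq}) → Kum_m(F_N)`, `[v] ↦ [Norm_β v]`;
* `betaUp N q m`  : `β^* : Kum_m(F_N) → Kum_m(F_{Nq})`, `[u] ↦ [β u]`;
* `betaLow_gal`, `betaUp_gal` : both commute with `KumType.gal`.

Together with `aLow`, `aLow_gal` these are two Galois-equivariant linear maps
`Kum_m(F_{Nq}) → Kum_m(F_N)` in the shape of helper24's `GeomInv` / `exists_oldKiller_dies`.
-/

noncomputable section

namespace Fermat.Agent.GK.UTr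

open AlgebraicCurve IntermediateField ModularCurve Fermat.Agent.S24 Fermat.Agent.S24_helper82
open Fermat.Agent.GJ Fermat.Agent.GJ.HN Fermat.Agent.GJ.HeckeMer Fermat.Agent.GJ.HInputs
open Fermat.Agent.GJ.KumGroup Fermat.Agent.GJ.Kum.KumType
open Fermat.Agent.GK.UQ CongruenceSubgroup
open scoped MatrixGroups

local notation "GQ" => (AlgebraicClosure ℚ ≃ₐ[ℚ] AlgebraicClosure ℚ)

section Beta

variable (N q m : ℕ) [NeZero N] [NeZero q]

/-- `F_{Nq}` is finite over `β(F_N)`, for all `N, q ≥ 1` -/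
theorem finiteAlong_betaB_all : FiniteAlong Kbar (betaB N q) := by
  have hN : IsGen Kbar (jGenL Kbar N) := isGen_jGenL_bar N
  have hNq : IsGen Kbar (jGenL Kbar (N * q)) := isGen_jGenL_bar (N * q)
  have htrβ : Transcendental Kbar (heckeBetaBar Kbar N q (jGenL Kbar N)) := by
    intro halg
    exact hN.transcendental
      ((isAlgebraic_algHom_iff (heckeBetaBar Kbar N q) (heckeBetaBar Kbar N q).injective).mp halg)
  have hgenβ : IsGen Kbar (heckeBetaBar Kbar N q (jGenL Kbar N)) :=
    IsGen.of_transcendental (jGenL Kbar (N * q)) htrβ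
  have hfdβ : FiniteDimensional Kbar⟮heckeBetaBar Kbar N q (jGenL Kbar N)⟯
      (laurentBaseChange Kbar (modularFunctionFieldFull (N * q))) := hgenβ.finite
  exact finiteAlong_of_gen _ (jGenL Kbar N)

/-- `β^*` on units -/
def betaUnits : (FK N)ˣ →* (FK (N * q))ˣ := Units.map (betaB N q).toMonoidHom

@[simp] theorem coe_betaUnits (u : (FK N)ˣ) :
    ((betaUnits N q u : (FK (N * q))ˣ) : FK (N * q)) = betaB N q (u : FK N) := rfl

/-- the norm `F_{Nq} → F_N` along `β`, on units -/
def normUnitsB : (FK (N * q))ˣ →* (FK N)ˣ := Units.map (normAlongHom (betaB N q))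

@[simp] theorem coe_normUnitsB (v : (FK (N * q))ˣ) :
    ((normUnitsB N q v : (FK N)ˣ) : FK N) = normAlong (betaB N q) (v : FK (N * q)) := rfl

theorem betaUnits_mem (u : (FK N)ˣ) (hu : u ∈ pDivUnits Kb (FK N) m) :
    betaUnits N q u ∈ pDivUnits Kb (FK (N * q)) m := by
  obtain ⟨-, hβ, -, -, -, -⟩ := heckeInputsAlong_bar N q
  exact fun Q => dvd_ord_map_of_dvd (betaB N q) hβ (m : ℤ) (u : FK N) hu Q

theorem normUnitsB_mem (v : (FK (N * q))ˣ) (hv : v ∈ pDivUnits Kb (FK (N * q)) m) :
    normUnitsB N q v ∈ pDivUnits Kb (FK N) m := by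
  obtain ⟨-, hβ, hP, -, -, -⟩ := heckeInputsAlong_bar N q
  exact fun P => dvd_ord_normAlong_of_dvd (betaB N q) hβ (finiteAlong_betaB_all N q)
    (fun v => PlaceB.deg_eq_one v (jF N) (hx := Fermat.Agent.S24_helper62.isGen_jF N)) (m : ℤ)
    (v : FK (N * q)) v.ne_zero hv P

/-- **`β_*`** : `Kum(F_{Nq}, m) → Kum(F_N, m)` -/
def betaLow : Additive (Kum Kb (FK (N * q)) m) →ₗ[ZMod m] Additive (Kum Kb (FK N) m) :=
  kumLin₂ (normUnitsB N q) (normUnitsB_mem N q m)

/-- **`β^*`** : `Kum(F_N, m) → Kum(F_{Nq}, m)` -/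
def betaUp : Additive (Kum Kb (FK N) m) →ₗ[ZMod m] Additive (Kum Kb (FK (N * q)) m) :=
  kumLin₂ (betaUnits N q) (betaUnits_mem N q m)

theorem betaLow_mk (v : pDivUnits Kb (FK (N * q)) m) :
    betaLow N q m (Additive.ofMul (Kum.mk v)) =
      Additive.ofMul (Kum.mk ⟨normUnitsB N q v, normUnitsB_mem N q m v v.2⟩) := rfl

theorem betaUp_mk (u : pDivUnits Kb (FK N) m) :
    betaUp N q m (Additive.ofMul (Kum.mk u)) =
      Additive.ofMul (Kum.mk ⟨betaUnits N q u, betaUnits_mem N q m u u.2⟩) := rfl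

/-! ### Galois-equivariance -/

/-- `β` commutes with the coefficientwise Galois action -/
theorem betaB_arith (σ : GQ) (a : FK N) :
    betaB N q (arithmeticRingAut (modularFunctionFieldFull N) σ a) =
      arithmeticRingAut (modularFunctionFieldFull (N * q)) σ (betaB N q a) := by
  apply Subtype.ext
  rw [coe_arithmeticRingAut_apply]
  show ((heckeBetaBar Kbar N q (arithmeticRingAut (modularFunctionFieldFull N) σ a) :
      FN (N * q)) : LaurentSeries Kbar) =
    coeffMap (σ : Kbar →+* Kbar) ((heckeBetaBar Kbar N q a : FN (N * q)) : LaurentSeries Kbar)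
  rw [coe_heckeBetaBar, coe_heckeBetaBar, coe_arithmeticRingAut_apply, coeffMap_qExpand]

/-- the norm along `β` commutes with the coefficientwise Galois action -/
theorem normAlongB_arith (σ : GQ) (v : FK (N * q)) :
    normAlong (betaB N q) (arithmeticRingAut (modularFunctionFieldFull (N * q)) σ v) =
      arithmeticRingAut (modularFunctionFieldFull N) σ (normAlong (betaB N q) v) := by
  letI : Algebra (FN N) (FN (N * q)) := algebraAlong (betaB N q)
  have he : RingHom.comp (algebraMap (FN N) (FN (N * q)))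
      ((arithmeticRingAut (modularFunctionFieldFull N) σ : FN N ≃+* FN N) : FN N →+* FN N) =
      RingHom.comp ((arithmeticRingAut (modularFunctionFieldFull (N * q)) σ :
        FN (N * q) ≃+* FN (N * q)) : FN (N * q) →+* FN (N * q))
        (algebraMap (FN N) (FN (N * q))) :=
    RingHom.ext fun a => betaB_arith N q σ a
  have h := Algebra.norm_eq_of_equiv_equiv
    (arithmeticRingAut (modularFunctionFieldFull N) σ : FN N ≃+* FN N)
    (arithmeticRingAut (modularFunctionFieldFull (N * q)) σ : FN (N * q) ≃+* FN (N * q)) he v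
  show Algebra.norm (FN N) (arithmeticRingAut (modularFunctionFieldFull (N * q)) σ v) =
    arithmeticRingAut (modularFunctionFieldFull N) σ (Algebra.norm (FN N) v)
  rw [h, RingEquiv.apply_symm_apply]

theorem normUnitsB_galUnits (σ : GQ) (v : (FK (N * q))ˣ) :
    normUnitsB N q (galUnits (N * q) σ v) = galUnits N σ (normUnitsB N q v) :=
  Units.ext (normAlongB_arith N q σ (v : FK (N * q)))

theorem betaUnits_galUnits (σ : GQ) (u : (FK N)ˣ) :
    betaUnits N q (galUnits N σ u) = galUnits (N * q) σ (betaUnits N q u) :=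
  Units.ext (betaB_arith N q σ (u : FK N))

/-- **`β_*` commutes with the Galois action** -/
theorem betaLow_gal (σ : GQ) (x : Additive (Kum Kb (FK (N * q)) m)) :
    betaLow N q m (gal (N * q) m σ x) = gal N m σ (betaLow N q m x) := by
  obtain ⟨v, rfl⟩ := exists_rep x
  rw [gal_mk, betaLow_mk, betaLow_mk, gal_mk]
  exact congrArg (fun w => Additive.ofMul (Kum.mk w))
    (Subtype.ext (normUnitsB_galUnits N q σ (v : (FK (N * q))ˣ)))

/-- **`β^*` commutes with the Galois action** -/
theorem betaUp_gal (σ : GQ) (x : Additive (Kum Kb (FK N) m)) :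
    betaUp N q m (gal N m σ x) = gal (N * q) m σ (betaUp N q m x) := by
  obtain ⟨u, rfl⟩ := exists_rep x
  rw [gal_mk, betaUp_mk, betaUp_mk, gal_mk]
  exact congrArg (fun w => Additive.ofMul (Kum.mk w))
    (Subtype.ext (betaUnits_galUnits N q σ (u : (FK N)ˣ)))

end Beta

end Fermat.Agent.GK.UTr
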