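import Mathlib
import Fermat.Agent.GK.UTr.KumBeta
import Fermat.Agent.GK.UTr.TRInst

set_option autoImplicit false
set_option linter.unusedSectionVars false

/-!
# GATE-K/L (helper82): `β_* = α_* ∘ W_q` at `q ∥ N' q`

`wAut h ∘ α = β` (helper42) makes `W_q` an isomorphism of `F_{N'}`-algebras from `F_{N' q}` with the
`α`-structure to `F_{N' q}` with the `β`-structure, hence `Norm_β (W v) = Norm_α v` and the general
`betaLow N' q m` (norm along `β`) coincides with GATE-K's `bLow h m = aLow ∘ autEnd (wAut h)`.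
-/

noncomputable section
namespace Fermat.Agent.GK.UTr

open AlgebraicCurve IntermediateField ModularCurve Fermat.Agent.S24 Fermat.Agent.S24_helper82
open Fermat.Agent.GJ Fermat.Agent.GJ.HN Fermat.Agent.GJ.HeckeMer Fermat.Agent.GJ.HInputs
open Fermat.Agent.GJ.KumGroup Fermat.Agent.GJ.Kum.KumType
open Fermat.Agent.GK.UQ Fermat.Agent.GK.AL Fermat.Agent.GK.UqKronecker CongruenceSubgroup

variable {N' q : ℕ} [NeZero N'] [NeZero q] (h : ExactDvd q (N' * q)) (m : ℕ)

/-- `Norm_β (W v) = Norm_α v` for the Atkin–Lehner involution `W` at `q ∥ N' q` -/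
theorem normAlong_betaB_wAut (v : FK (N' * q)) :
    normAlong (betaB N' q) (wAut h v) = normAlong (alphaB N' q) v := by
  have he : RingHom.comp (@algebraMap (FN N') (FN (N' * q)) _ _ (algebraAlong (betaB N' q)))
      ((RingEquiv.refl (FN N') : FN N' ≃+* FN N') : FN N' →+* FN N') =
      RingHom.comp (((wAut h : FN (N' * q) ≃ₐ[Kbar] FN (N' * q)) : FN (N' * q) ≃+* FN (N' * q)) :
        FN (N' * q) →+* FN (N' * q))
        (@algebraMap (FN N') (FN (N' * q)) _ _ (algebraAlong (alphaB N' q))) :=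
    RingHom.ext fun a => (wAut_alphaB N' h a).symm
  have h1 := @Algebra.norm_eq_of_equiv_equiv (FN N') (FN (N' * q)) (FN N') (FN (N' * q)) _ _ _ _
    (algebraAlong (alphaB N' q)) (algebraAlong (betaB N' q)) (RingEquiv.refl (FN N'))
    ((wAut h : FN (N' * q) ≃ₐ[Kbar] FN (N' * q)) : FN (N' * q) ≃+* FN (N' * q)) he v
  exact h1.symm

theorem betaLow_eq_bLow (x : Additive (Kum Kb (FK (N' * q)) m)) :
    betaLow N' q m x = bLow h m x := by
  obtain ⟨v, rfl⟩ := exists_rep x
  rw [bLow_apply, autEnd_mk, aLow_mk, betaLow_mk]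
  refine congrArg (fun w => Additive.ofMul (Kum.mk w)) (Subtype.ext (Units.ext ?_))
  show normAlong (betaB N' q) ((v : (FK (N' * q))ˣ) : FK (N' * q)) =
    normAlong (alphaB N' q) (wAut h ((v : (FK (N' * q))ˣ) : FK (N' * q)))
  rw [← normAlong_betaB_wAut h, wAut_wAut]

end Fermat.Agent.GK.UTr
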